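/-
S43 (row 37), block HALF (architect helper43).  Mathlib only.

THE COUNTING ARGUMENT which replaces the semistable model of `X_H` (T2 / ORTH at level `H`).

Dictionary: `n = p ^ k`, `P = p ^ a`, `W = W_H(n)_m`, `W0 = W_0(n)_m`, `δ` = the diamond generator,
`T = δ - 1`, `X = Σ - 1` (`Σ` a generator of tame inertia at `q`), `X' = Σ - δ = X - T`,
`N0 = Σ_0 - 1`, `i = π^*`, `ν = π_*`.
`K`  = classes `≡ 1` at the Gauss valuation `v_∞`, `K' = w K`.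
-/
import Mathlib

set_option autoImplicit false

namespace Fermat.Agent.S43.Half

variable {W W0 : Type*} [AddCommGroup W] [AddCommGroup W0]

/-- The hypotheses which do not involve `K`, `K'`: `FREE` at level `p ^ k` and the level-`0` facts. -/
structure Hyp0 (p k a r : ℕ) (δ X : Module.End ℤ W) (N0 : Module.End ℤ W0)
    (i : W0 →ₗ[ℤ] W) (ν : W →ₗ[ℤ] W0) : Prop where
  hp : p.Prime
  hk : 0 < k
  hak : a ≤ k
  pk : ∀ w : W, (p ^ k : ℤ) • w = 0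
  δP : δ ^ (p ^ a) = 1
  comm : Commute δ X
  -- `π^*` is an isomorphism of `W0` onto `ker T`
  i_inj : Function.Injective i
  δ_i : ∀ x, δ (i x) = i x
  i_surj : ∀ w, δ w = w → ∃ x, i x = w
  -- `π_*` is onto with kernel `T W`
  ν_surj : Function.Surjective ν
  ν_δ : ∀ w, ν (δ w) = ν w
  ν_ker : ∀ w, ν w = 0 → ∃ w', w = δ w' - w'
  ν_i : ∀ x, ν (i x) = (p ^ a : ℤ) • x
  i_ν : ∀ w, i (ν w) = (∑ j ∈ Finset.range (p ^ a), δ ^ j) w
  X_i : ∀ x, X (i x) = i (N0 x)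
  ν_X : ∀ w, ν (X w) = N0 (ν w)
  -- `W` is free of rank `2 r` over `(ℤ / p ^ k)[Δ]`, `W0` is free of rank `2 r` over `ℤ / p ^ k`
  cardW : Nat.card W = p ^ (2 * (k * r * p ^ a))
  cardW0 : Nat.card W0 = p ^ (2 * (k * r))
  div : ∀ (j : ℕ) (x : W0), j ≤ k → (p ^ j : ℤ) • x = 0 → ∃ y, x = (p ^ (k - j) : ℤ) • y
  -- level `0`: `N0 ^ 2 = 0`, exactness
  N0_sq : ∀ x, N0 (N0 x) = 0
  card_ker : Nat.card (LinearMap.ker N0) = p ^ (k * r)
  rank_p : p ^ r ≤ Nat.card (Submodule.map N0 (Submodule.torsionBy ℤ W0 (p : ℤ)))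
  coker_p : Nat.card (W0 ⧸ (LinearMap.range N0 ⊔
    LinearMap.range ((p : ℤ) • (1 : Module.End ℤ W0)))) ≤ p ^ r

/-- The hypotheses on a submodule `K` relative to `Y` (`(K, Y) = (K_∞, Σ - 1)` or
`(w K_∞, Σ - δ)`). -/
structure HypK (p : ℕ) (δ Y : Module.End ℤ W) (N0 : Module.End ℤ W0) (i : W0 →ₗ[ℤ] W)
    (K : Submodule ℤ W) : Prop where
  /-- the trivial inclusion (F1 / F3) -/
  le : ∀ w, Y w ∈ K
  stable : ∀ w ∈ K, δ w ∈ K
  /-- (INJ) -/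
  inj : ∀ x : W0, (p : ℤ) • x = 0 → i x ∈ K → N0 x = 0

end Fermat.Agent.S43.Half
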