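/-
S43 (row 37), block HALF (architect helper43): `T = δ - 1`, `δ ^ (p ^ a) = 1`:
`T ^ P ∈ p End`, `Nm - T ^ (P-1) ∈ p End`.  Mathlib only.
-/
import Mathlib

set_option autoImplicit false

namespace Fermat.Agent.S43.Half

open Polynomial

/-- an integral polynomial which vanishes mod `p` is a multiple of `p` -/
theorem half_C_dvd_of_map_eq_zero (p : ℕ) (f : ℤ[X])
    (h : f.map (Int.castRingHom (ZMod p)) = 0) : C (p : ℤ) ∣ f := by
  rw [Polynomial.C_dvd_iff_dvd_coeff]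
  intro i
  have h1 := congrArg (fun g => g.coeff i) h
  simp only [coeff_map, coeff_zero, eq_intCast] at h1
  exact (ZMod.intCast_zmod_eq_zero_iff_dvd _ p).1 h1

/-- P0: `(X - 1) ^ (p ^ a) ≡ X ^ (p ^ a) - 1 mod p` in `ℤ[X]`. -/
theorem exists_sub_one_pow (p a : ℕ) (hp : p.Prime) :
    ∃ c : ℤ[X], (X - 1 : ℤ[X]) ^ (p ^ a) = X ^ (p ^ a) - 1 + C (p : ℤ) * c := by
  have : Fact p.Prime := ⟨hp⟩
  have h : ((X - 1 : ℤ[X]) ^ (p ^ a) - (X ^ (p ^ a) - 1)).map (Int.castRingHom (ZMod p)) = 0 := by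
    simp only [Polynomial.map_sub, Polynomial.map_pow, Polynomial.map_X, Polynomial.map_one]
    rw [sub_pow_char_pow, one_pow, sub_self]
  obtain ⟨c, hc⟩ := half_C_dvd_of_map_eq_zero p _ h
  exact ⟨c, by rw [← hc]; ring⟩

/-- P0': `∑_{j < p ^ a} X ^ j ≡ (X - 1) ^ (p ^ a - 1) mod p` in `ℤ[X]`. -/
theorem exists_geom_sum (p a : ℕ) (hp : p.Prime) :
    ∃ c : ℤ[X], (∑ j ∈ Finset.range (p ^ a), (X : ℤ[X]) ^ j) =
      (X - 1) ^ (p ^ a - 1) + C (p : ℤ) * c := by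
  have : Fact p.Prime := ⟨hp⟩
  have hpos : 0 < p ^ a := pow_pos hp.pos a
  have h : ((∑ j ∈ Finset.range (p ^ a), (X : ℤ[X]) ^ j) - (X - 1) ^ (p ^ a - 1)).map
      (Int.castRingHom (ZMod p)) = 0 := by
    have hX : (X - 1 : (ZMod p)[X]) ≠ 0 := by
      have := Polynomial.X_sub_C_ne_zero (1 : ZMod p)
      rwa [map_one] at this
    have h1 : (((∑ j ∈ Finset.range (p ^ a), (X : ℤ[X]) ^ j) - (X - 1) ^ (p ^ a - 1)).map
        (Int.castRingHom (ZMod p))) * (X - 1) = 0 := by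
      simp only [Polynomial.map_sub, Polynomial.map_pow, Polynomial.map_X, Polynomial.map_one,
        Polynomial.map_sum]
      rw [sub_mul, geom_sum_mul, ← pow_succ, Nat.sub_add_cancel hpos, sub_pow_char_pow, one_pow,
        sub_self]
    exact (mul_eq_zero.1 h1).resolve_right hX
  obtain ⟨c, hc⟩ := half_C_dvd_of_map_eq_zero p _ h
  exact ⟨c, by rw [← hc]; ring⟩

variable {W : Type*} [AddCommGroup W]

theorem half_commute_aeval (δ : Module.End ℤ W) (c : ℤ[X]) : Commute (aeval δ c) δ := by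
  have h := (Commute.all c X).map (aeval δ)
  rwa [aeval_X] at h

/-- P1 -/
theorem exists_T_pow (p a : ℕ) (hp : p.Prime) (δ : Module.End ℤ W) (hδ : δ ^ (p ^ a) = 1) :
    ∃ c : Module.End ℤ W, Commute c δ ∧ (δ - 1) ^ (p ^ a) = (p : ℤ) • c := by
  obtain ⟨c, hc⟩ := exists_sub_one_pow p a hp
  refine ⟨aeval δ c, half_commute_aeval δ c, ?_⟩
  have h := congrArg (aeval δ) hc
  rw [C_mul'] at h
  simp only [map_pow, map_sub, map_add, aeval_X, map_one, map_smul] at h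
  rw [h, hδ, sub_self, zero_add]

/-- P2 -/
theorem exists_Nm (p a : ℕ) (hp : p.Prime) (δ : Module.End ℤ W) :
    ∃ c : Module.End ℤ W, Commute c δ ∧
      (∑ j ∈ Finset.range (p ^ a), δ ^ j) = (δ - 1) ^ (p ^ a - 1) + (p : ℤ) • c := by
  obtain ⟨c, hc⟩ := exists_geom_sum p a hp
  refine ⟨aeval δ c, half_commute_aeval δ c, ?_⟩
  have h := congrArg (aeval δ) hc
  rw [C_mul'] at h
  simp only [map_pow, map_sub, map_add, aeval_X, map_one, map_smul, map_sum] at h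
  exact h

end Fermat.Agent.S43.Half
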