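/-
S43 (row 37), block HALF (architect helper43): leaves B1, B2.
-/
import Fermat.Agent.S43.Half.Defs
import Fermat.Agent.S43.Half.Poly

set_option autoImplicit false

namespace Fermat.Agent.S43.Half


variable {W W0 : Type*} [AddCommGroup W] [AddCommGroup W0] [Finite W] [Finite W0]
  {p k a r : ℕ} {δ X : Module.End ℤ W} {N0 : Module.End ℤ W0} {i : W0 →ₗ[ℤ] W} {ν : W →ₗ[ℤ] W0}

/-- B1: `i (W0[p])` lies in `p ^ (k-1) T ^ (P-1) W`:
`x = p ^ (k-1) ν w`, `i x = p ^ (k-1) Nm w = p ^ (k-1) T ^ (P-1) w` (`exists_Nm`, `pk`). -/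
theorem i_mem_range_soc (H : Hyp0 p k a r δ X N0 i ν) (x : W0) (hx : (p : ℤ) • x = 0) :
    i x ∈ LinearMap.range
      (((p : ℤ) • (1 : Module.End ℤ W)) ^ (k - 1) * (δ - 1) ^ (p ^ a - 1)) := by
  obtain ⟨y, hy⟩ := H.div 1 x H.hk (by rw [pow_one]; exact hx)
  obtain ⟨w, rfl⟩ := H.ν_surj y
  obtain ⟨c, -, hc⟩ := exists_Nm p a H.hp δ
  refine ⟨w, ?_⟩
  have h1 : ((p : ℤ) ^ (k - 1)) • ((p : ℤ) • c w) = 0 := by
    rw [smul_smul, ← pow_succ, Nat.sub_add_cancel H.hk]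
    exact H.pk (c w)
  rw [hy, map_smul, H.i_ν, hc, LinearMap.add_apply, LinearMap.smul_apply, smul_add, h1, add_zero,
    smul_pow, one_pow, Module.End.mul_apply, LinearMap.smul_apply, Module.End.one_apply]

/-- B2: the image of `p ^ (k-1) T ^ (P-1) W` in `W / K` has at least `p ^ r` elements
(`x ↦ [i x]` on `W0[p]` has its kernel inside `ker N0`; `rank_p`). -/
theorem le_card_map_soc (H : Hyp0 p k a r δ X N0 i ν) (K : Submodule ℤ W)
    (hinj : ∀ x : W0, (p : ℤ) • x = 0 → i x ∈ K → N0 x = 0) :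
    p ^ r ≤ Nat.card (Submodule.map K.mkQ (LinearMap.range
      (((p : ℤ) • (1 : Module.End ℤ W)) ^ (k - 1) * (δ - 1) ^ (p ^ a - 1)))) := by
  refine H.rank_p.trans ?_
  have hch : ∀ z : Submodule.map N0 (Submodule.torsionBy ℤ W0 (p : ℤ)),
      ∃ x : W0, (p : ℤ) • x = 0 ∧ N0 x = z := by
    rintro ⟨z, x, hx, rfl⟩
    exact ⟨x, (Submodule.mem_torsionBy_iff _ _).1 hx, rfl⟩
  choose φ hφ1 hφ2 using hch
  have : Finite (W ⧸ K) := Finite.of_surjective K.mkQ (Submodule.mkQ_surjective K)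
  have : Finite (Submodule.map K.mkQ (LinearMap.range
      (((p : ℤ) • (1 : Module.End ℤ W)) ^ (k - 1) * (δ - 1) ^ (p ^ a - 1)))) :=
    Finite.of_injective _ Subtype.val_injective
  refine Nat.card_le_card_of_injective (fun z => (⟨K.mkQ (i (φ z)),
    Submodule.mem_map_of_mem (i_mem_range_soc H _ (hφ1 z))⟩ : Submodule.map K.mkQ (LinearMap.range
      (((p : ℤ) • (1 : Module.End ℤ W)) ^ (k - 1) * (δ - 1) ^ (p ^ a - 1))))) ?_
  intro z z' hzz
  have h1 : K.mkQ (i (φ z)) = K.mkQ (i (φ z')) := congrArg Subtype.val hzz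
  have h2 : i (φ z - φ z') ∈ K := by
    rw [map_sub]
    exact (Submodule.Quotient.eq K).1 h1
  have h3 := hinj (φ z - φ z') (by rw [smul_sub, hφ1, hφ1, sub_zero]) h2
  rw [map_sub, sub_eq_zero, hφ2, hφ2] at h3
  exact Subtype.ext h3

end Fermat.Agent.S43.Half
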