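/-
S43 (row 37), block HALF (architect helper43): leaf N1 (Mathlib only).
-/
import Mathlib

set_option autoImplicit false

namespace Fermat.Agent.S43.Half


variable {Q : Type*} [AddCommGroup Q] [Finite Q]

/-- N1: `f ^ m = 0` implies `|f ^ (m-1) Q| ^ m ≤ |Q|`
(`f ^ (m-1-j)` maps `f ^ j Q / f ^ (j+1) Q` onto `f ^ (m-1) Q`). -/
theorem card_range_pow_le (f : Module.End ℤ Q) (m : ℕ) (hm : 0 < m) (hf : f ^ m = 0) :
    Nat.card (LinearMap.range (f ^ (m - 1))) ^ m ≤ Nat.card Q := by
  classical
  -- one step of the chain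
  have step : ∀ j, j < m → Nat.card (LinearMap.range (f ^ (m - 1))) *
      Nat.card (LinearMap.range (f ^ (j + 1))) ≤ Nat.card (LinearMap.range (f ^ j)) := by
    intro j hj
    set A := LinearMap.range (f ^ j) with hA
    set g : A →ₗ[ℤ] Q := (f ^ (m - 1 - j)).domRestrict A with hg
    have h1 : Nat.card A = Nat.card (LinearMap.ker g) * Nat.card (A ⧸ LinearMap.ker g) :=
      Submodule.card_eq_card_quotient_mul_card (LinearMap.ker g)
    have h2 : Nat.card (A ⧸ LinearMap.ker g) = Nat.card (LinearMap.range g) :=
      Nat.card_congr g.quotKerEquivRange.toEquiv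
    have h3 : LinearMap.range g = LinearMap.range (f ^ (m - 1)) := by
      ext y
      constructor
      · rintro ⟨⟨x, z, rfl⟩, rfl⟩
        refine ⟨z, ?_⟩
        have e : m - 1 = (m - 1 - j) + j := by omega
        rw [e, pow_add]
        rfl
      · rintro ⟨z, rfl⟩
        refine ⟨⟨(f ^ j) z, z, rfl⟩, ?_⟩
        have e : m - 1 = (m - 1 - j) + j := by omega
        conv_rhs => rw [e, pow_add]
        rfl
    have h4 : Nat.card (LinearMap.range (f ^ (j + 1))) ≤ Nat.card (LinearMap.ker g) := by
      have hmem : ∀ x : LinearMap.range (f ^ (j + 1)), (x : Q) ∈ A := by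
        rintro ⟨x, z, rfl⟩
        refine ⟨f z, ?_⟩
        rw [pow_succ]
        rfl
      have hker : ∀ x : LinearMap.range (f ^ (j + 1)),
          (⟨(x : Q), hmem x⟩ : A) ∈ LinearMap.ker g := by
        rintro ⟨x, z, rfl⟩
        rw [LinearMap.mem_ker]
        change (f ^ (m - 1 - j)) ((f ^ (j + 1)) z) = 0
        rw [← Module.End.mul_apply, ← pow_add]
        have e : m - 1 - j + (j + 1) = m := by omega
        rw [e, hf]
        rfl
      refine Nat.card_le_card_of_injective
        (fun x => (⟨⟨(x : Q), hmem x⟩, hker x⟩ : LinearMap.ker g)) ?_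
      intro x y hxy
      have := congrArg (fun t : LinearMap.ker g => ((t : A) : Q)) hxy
      exact Subtype.ext this
    rw [h1, h2, h3, mul_comm]
    exact Nat.mul_le_mul_right _ h4
  -- the induction
  have key : ∀ j, j ≤ m → Nat.card (LinearMap.range (f ^ (m - 1))) ^ j *
      Nat.card (LinearMap.range (f ^ j)) ≤ Nat.card Q := by
    intro j
    induction j with
    | zero =>
      intro _
      rw [pow_zero, one_mul]
      exact Nat.card_le_card_of_injective _ Subtype.val_injective
    | succ j ih =>
      intro hj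
      calc _ = Nat.card (LinearMap.range (f ^ (m - 1))) ^ j *
            (Nat.card (LinearMap.range (f ^ (m - 1))) *
              Nat.card (LinearMap.range (f ^ (j + 1)))) := by ring
        _ ≤ Nat.card (LinearMap.range (f ^ (m - 1))) ^ j * Nat.card (LinearMap.range (f ^ j)) :=
            Nat.mul_le_mul_left _ (step j (by omega))
        _ ≤ _ := ih (by omega)
  have h := key m le_rfl
  have h0 : Nat.card (LinearMap.range (f ^ m)) = 1 := by
    rw [hf, LinearMap.range_zero]
    exact Nat.card_unique
  rwa [h0, mul_one] at h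

end Fermat.Agent.S43.Half
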