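/-
S43 (row 37), block HALF (architect helper43): leaf N3.
-/
import Fermat.Agent.S43.Half.N1

set_option autoImplicit false

namespace Fermat.Agent.S43.Half


variable {W : Type*} [AddCommGroup W] [Finite W]

/-- N3: modulo the stable submodule `K`: `f ^ k = 0`, `f ^ (k-1) g ^ P = 0` imply
`|f ^ (k-1) g ^ (P-1) (W/K)| ^ (k P) ≤ |W/K|`.  (N1 for `f` on `W/K`, then N1 for `g` on
`f ^ (k-1) (W/K)`.) -/
theorem card_soc_pow_le (K : Submodule ℤ W) (f g : Module.End ℤ W) (hc : Commute f g)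
    (hfK : ∀ w ∈ K, f w ∈ K) (hgK : ∀ w ∈ K, g w ∈ K) (k P : ℕ) (hk : 0 < k) (hP : 0 < P)
    (hf : ∀ w, (f ^ k) w ∈ K) (hg : ∀ w, (f ^ (k - 1) * g ^ P) w ∈ K) :
    Nat.card (Submodule.map K.mkQ (LinearMap.range (f ^ (k - 1) * g ^ (P - 1)))) ^ (k * P) ≤
      Nat.card (W ⧸ K) := by
  classical
  have : Finite (W ⧸ K) := Finite.of_surjective _ K.mkQ_surjective
  have hfK' : K ≤ K.comap f := fun w hw => hfK w hw
  have hgK' : K ≤ K.comap g := fun w hw => hgK w hw
  set fb : Module.End ℤ (W ⧸ K) := K.mapQ K f hfK' with hfb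
  set gb : Module.End ℤ (W ⧸ K) := K.mapQ K g hgK' with hgb
  have hfpow : ∀ (n : ℕ) (w : W), (fb ^ n) (K.mkQ w) = K.mkQ ((f ^ n) w) := by
    intro n
    induction n with
    | zero => intro w; simp
    | succ n ih =>
      intro w
      rw [pow_succ, pow_succ, Module.End.mul_apply, Module.End.mul_apply,
        show fb (K.mkQ w) = K.mkQ (f w) from rfl, ih]
  have hgpow : ∀ (n : ℕ) (w : W), (gb ^ n) (K.mkQ w) = K.mkQ ((g ^ n) w) := by
    intro n
    induction n with
    | zero => intro w; simp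
    | succ n ih =>
      intro w
      rw [pow_succ, pow_succ, Module.End.mul_apply, Module.End.mul_apply,
        show gb (K.mkQ w) = K.mkQ (g w) from rfl, ih]
  have hfk : fb ^ k = 0 := by
    apply LinearMap.ext
    intro x
    obtain ⟨w, rfl⟩ := K.mkQ_surjective x
    rw [hfpow, LinearMap.zero_apply, Submodule.mkQ_apply, Submodule.Quotient.mk_eq_zero]
    exact hf w
  have h1 := card_range_pow_le fb k hk hfk
  have hcb : Commute fb gb := by
    apply LinearMap.ext
    intro x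
    obtain ⟨w, rfl⟩ := K.mkQ_surjective x
    have := congrArg (fun e : Module.End ℤ W => K.mkQ (e w)) hc.eq
    exact this
  have hR : ∀ x ∈ LinearMap.range (fb ^ (k - 1)), gb x ∈ LinearMap.range (fb ^ (k - 1)) := by
    rintro _ ⟨y, rfl⟩
    refine ⟨gb y, ?_⟩
    have := congrArg (fun e : Module.End ℤ (W ⧸ K) => e y) (hcb.pow_left (k - 1)).eq
    exact this
  set gR : Module.End ℤ (LinearMap.range (fb ^ (k - 1))) := gb.restrict hR with hgR
  have hgRpow : ∀ (n : ℕ) (x : LinearMap.range (fb ^ (k - 1))),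
      (((gR ^ n) x : LinearMap.range (fb ^ (k - 1))) : W ⧸ K) = (gb ^ n) x.1 := by
    intro n
    induction n with
    | zero => intro x; simp
    | succ n ih =>
      intro x
      rw [pow_succ, pow_succ, Module.End.mul_apply, Module.End.mul_apply, ih]
      rfl
  have hgRP : gR ^ P = 0 := by
    apply LinearMap.ext
    rintro ⟨_, y, rfl⟩
    apply Subtype.ext
    rw [hgRpow]
    obtain ⟨w, rfl⟩ := K.mkQ_surjective y
    show (gb ^ P) ((fb ^ (k - 1)) (K.mkQ w)) = 0
    rw [hfpow, hgpow, Submodule.mkQ_apply, Submodule.Quotient.mk_eq_zero]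
    have h := hg w
    rw [((hc.pow_pow (k - 1) P)).eq] at h
    exact h
  have h2 := card_range_pow_le gR P hP hgRP
  have h3 : Submodule.map K.mkQ (LinearMap.range (f ^ (k - 1) * g ^ (P - 1))) =
      Submodule.map (LinearMap.range (fb ^ (k - 1))).subtype (LinearMap.range (gR ^ (P - 1))) := by
    ext x
    constructor
    · rintro ⟨_, ⟨w, rfl⟩, rfl⟩
      refine ⟨(gR ^ (P - 1)) ⟨(fb ^ (k - 1)) (K.mkQ w), ⟨_, rfl⟩⟩, ⟨_, rfl⟩, ?_⟩
      rw [Submodule.subtype_apply, hgRpow]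
      show (gb ^ (P - 1)) ((fb ^ (k - 1)) (K.mkQ w)) = _
      rw [hfpow, hgpow, ((hc.pow_pow (k - 1) (P - 1))).eq]
      rfl
    · rintro ⟨_, ⟨⟨_, y, rfl⟩, rfl⟩, rfl⟩
      obtain ⟨w, rfl⟩ := K.mkQ_surjective y
      refine ⟨(f ^ (k - 1) * g ^ (P - 1)) w, ⟨w, rfl⟩, ?_⟩
      rw [Submodule.subtype_apply, hgRpow]
      show _ = (gb ^ (P - 1)) ((fb ^ (k - 1)) (K.mkQ w))
      rw [hfpow, hgpow, ((hc.pow_pow (k - 1) (P - 1))).eq]
      rfl
  have h4 : Nat.card (Submodule.map K.mkQ (LinearMap.range (f ^ (k - 1) * g ^ (P - 1)))) =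
      Nat.card (LinearMap.range (gR ^ (P - 1))) := by
    rw [h3]
    exact (Nat.card_congr (Submodule.equivMapOfInjective _
      (Submodule.subtype_injective _) _).toEquiv).symm
  calc Nat.card (Submodule.map K.mkQ (LinearMap.range (f ^ (k - 1) * g ^ (P - 1)))) ^ (k * P)
      = (Nat.card (LinearMap.range (gR ^ (P - 1))) ^ P) ^ k := by rw [h4, mul_comm, pow_mul]
    _ ≤ Nat.card (LinearMap.range (fb ^ (k - 1))) ^ k := Nat.pow_le_pow_left h2 k
    _ ≤ _ := h1

end Fermat.Agent.S43.Half
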