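/-
S43 (row 37), block HALF (architect helper43): leaf B3.
-/
import Fermat.Agent.S43.Half.B1
import Fermat.Agent.S43.Half.N3

set_option autoImplicit false

namespace Fermat.Agent.S43.Half


variable {W W0 : Type*} [AddCommGroup W] [AddCommGroup W0] [Finite W] [Finite W0]
  {p k a r : ℕ} {δ X : Module.End ℤ W} {N0 : Module.End ℤ W0} {i : W0 →ₗ[ℤ] W} {ν : W →ₗ[ℤ] W0}

/-- B3 (step (1) of the memo): `|W / K| ≥ p ^ (k r P)`.  (`card_soc_pow_le` with `f = p`,
`g = δ - 1`, `le_card_map_soc`, `exists_T_pow`.) -/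
theorem le_card_quot (H : Hyp0 p k a r δ X N0 i ν) (K : Submodule ℤ W)
    (hδK : ∀ w ∈ K, δ w ∈ K)
    (hinj : ∀ x : W0, (p : ℤ) • x = 0 → i x ∈ K → N0 x = 0) :
    p ^ (k * r * p ^ a) ≤ Nat.card (W ⧸ K) := by
  have hfpow : ∀ (m : ℕ) (w : W), (((p : ℤ) • (1 : Module.End ℤ W)) ^ m) w = (p ^ m : ℤ) • w := by
    intro m w
    rw [smul_pow, one_pow, LinearMap.smul_apply, Module.End.one_apply]
  obtain ⟨c, -, hc⟩ := exists_T_pow p a H.hp δ H.δP
  have h1 := card_soc_pow_le K ((p : ℤ) • (1 : Module.End ℤ W)) (δ - 1)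
    ((Commute.one_left (δ - 1)).smul_left _)
    (fun w hw => by
      rw [LinearMap.smul_apply, Module.End.one_apply]
      exact K.smul_mem _ hw)
    (fun w hw => by
      rw [LinearMap.sub_apply, Module.End.one_apply]
      exact K.sub_mem (hδK w hw) hw)
    k (p ^ a) H.hk (pow_pos H.hp.pos a)
    (fun w => by
      rw [hfpow, H.pk]
      exact K.zero_mem)
    (fun w => by
      rw [hc, Module.End.mul_apply, hfpow, LinearMap.smul_apply, smul_smul, ← pow_succ,
        Nat.sub_add_cancel H.hk, H.pk]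
      exact K.zero_mem)
  have h2 := le_card_map_soc H K hinj
  calc p ^ (k * r * p ^ a) = (p ^ r) ^ (k * p ^ a) := by
        rw [← pow_mul]
        congr 1
        ring
    _ ≤ _ := Nat.pow_le_pow_left h2 _
    _ ≤ _ := h1

end Fermat.Agent.S43.Half
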