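/-
S43 (row 37), block HALF (architect helper43): leaf B4.
-/
import Fermat.Agent.S43.Half.Defs

set_option autoImplicit false

namespace Fermat.Agent.S43.Half


variable {W W0 : Type*} [AddCommGroup W] [AddCommGroup W0] [Finite W] [Finite W0]
  {p k a r : ℕ} {δ X : Module.End ℤ W} {N0 : Module.End ℤ W0} {i : W0 →ₗ[ℤ] W} {ν : W →ₗ[ℤ] W0}

/-- B4: `W / (Y W + p W + T W)` is a quotient of `W0 / (N0 W0 + p W0)` (via `ν`; `ν_ker`). -/
theorem card_quot_sup_le (H : Hyp0 p k a r δ X N0 i ν) (Y : Module.End ℤ W)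
    (hνY : ∀ w, ν (Y w) = N0 (ν w)) :
    Nat.card (W ⧸ (LinearMap.range Y ⊔ LinearMap.range ((p : ℤ) • (1 : Module.End ℤ W)) ⊔
      LinearMap.range (δ - 1))) ≤ p ^ r := by
  set S : Submodule ℤ W := LinearMap.range Y ⊔ LinearMap.range ((p : ℤ) • (1 : Module.End ℤ W)) ⊔
      LinearMap.range (δ - 1) with hS
  set S0 : Submodule ℤ W0 := LinearMap.range N0 ⊔
    LinearMap.range ((p : ℤ) • (1 : Module.End ℤ W0)) with hS0
  have hle : S ≤ S0.comap ν := by
    rw [hS]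
    refine sup_le (sup_le ?_ ?_) ?_
    · rintro _ ⟨w, rfl⟩
      show ν (Y w) ∈ S0
      rw [hνY]
      exact Submodule.mem_sup_left ⟨ν w, rfl⟩
    · rintro _ ⟨w, rfl⟩
      show ν (((p : ℤ) • (1 : Module.End ℤ W)) w) ∈ S0
      refine Submodule.mem_sup_right ⟨ν w, ?_⟩
      simp
    · rintro _ ⟨w, rfl⟩
      show ν ((δ - 1) w) ∈ S0
      have : ν ((δ - 1) w) = 0 := by simp [H.ν_δ]
      rw [this]
      exact S0.zero_mem
  have hinj : Function.Injective (S.mapQ S0 ν hle) := by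
    rw [← LinearMap.ker_eq_bot, LinearMap.ker_eq_bot']
    intro x hx
    obtain ⟨w, rfl⟩ := S.mkQ_surjective x
    rw [Submodule.mkQ_apply, Submodule.mapQ_apply, Submodule.Quotient.mk_eq_zero] at hx
    rw [Submodule.mkQ_apply, Submodule.Quotient.mk_eq_zero]
    obtain ⟨_, ⟨x0, rfl⟩, _, ⟨y0, rfl⟩, hxy⟩ := Submodule.mem_sup.mp hx
    obtain ⟨x', rfl⟩ := H.ν_surj x0
    obtain ⟨y', rfl⟩ := H.ν_surj y0
    have h0 : ν (w - Y x' - (p : ℤ) • y') = 0 := by
      rw [map_sub, map_sub, hνY, map_smul, ← hxy]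
      simp
    obtain ⟨w', hw'⟩ := H.ν_ker _ h0
    have hw : w = Y x' + ((p : ℤ) • (1 : Module.End ℤ W)) y' + (δ - 1) w' := by
      have : (δ - 1) w' = δ w' - w' := by simp
      rw [this, ← hw']
      simp
    rw [hw, hS]
    exact Submodule.add_mem _ (Submodule.mem_sup_left (Submodule.add_mem _
      (Submodule.mem_sup_left ⟨x', rfl⟩) (Submodule.mem_sup_right ⟨y', rfl⟩)))
      (Submodule.mem_sup_right ⟨w', rfl⟩)
  have : Finite (W0 ⧸ S0) := Quotient.finite _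
  exact (Nat.card_le_card_of_injective _ hinj).trans H.coker_p

end Fermat.Agent.S43.Half
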