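/-
S43 (row 37), block HALF (architect helper43): leaf N2 (Mathlib only).
-/
import Mathlib

set_option autoImplicit false

namespace Fermat.Agent.S43.Half


variable {Q : Type*} [AddCommGroup Q] [Finite Q]

/-- one step: `|f ^ j Q| ≤ |Q / f Q| * |f ^ (j+1) Q|`. -/
private theorem half_card_range_step (f : Module.End ℤ Q) (j : ℕ) :
    Nat.card (LinearMap.range (f ^ j)) ≤
      Nat.card (Q ⧸ LinearMap.range f) * Nat.card (LinearMap.range (f ^ (j + 1))) := by
  classical
  set R : Submodule ℤ Q := LinearMap.range (f ^ j) with hR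
  set R' : Submodule ℤ Q := LinearMap.range (f ^ (j + 1)) with hR'
  have hle : R' ≤ R := by
    rintro _ ⟨x, rfl⟩
    exact ⟨f x, by rw [pow_succ, Module.End.mul_apply]⟩
  set S : Submodule ℤ R := R'.comap R.subtype with hS
  have hcardS : Nat.card S = Nat.card R' :=
    Nat.card_congr (Submodule.comapSubtypeEquivOfLe hle).toEquiv
  have hmul : Nat.card R = Nat.card S * Nat.card (R ⧸ S) :=
    Submodule.card_eq_card_quotient_mul_card S
  let φ : Q →ₗ[ℤ] (R ⧸ S) := S.mkQ.comp (f ^ j).rangeRestrict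
  have hφ : Function.Surjective φ :=
    (Submodule.mkQ_surjective S).comp (LinearMap.surjective_rangeRestrict _)
  have hker : LinearMap.range f ≤ LinearMap.ker φ := by
    rintro _ ⟨x, rfl⟩
    rw [LinearMap.mem_ker]
    show S.mkQ ((f ^ j).rangeRestrict (f x)) = 0
    rw [Submodule.mkQ_apply, Submodule.Quotient.mk_eq_zero]
    show (f ^ j) (f x) ∈ R'
    exact ⟨x, by rw [pow_succ, Module.End.mul_apply]⟩
  have hsurj : Function.Surjective ((LinearMap.range f).liftQ φ hker) := by
    intro y
    obtain ⟨x, rfl⟩ := hφ y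
    exact ⟨Submodule.Quotient.mk x, by simp⟩
  have : Finite (Q ⧸ LinearMap.range f) :=
    Finite.of_surjective _ (Submodule.mkQ_surjective (LinearMap.range f))
  have hq : Nat.card (R ⧸ S) ≤ Nat.card (Q ⧸ LinearMap.range f) :=
    Nat.card_le_card_of_surjective _ hsurj
  rw [hmul, hcardS, mul_comm]
  exact Nat.mul_le_mul_right _ hq

private theorem half_card_le_pow_mul (f : Module.End ℤ Q) (m : ℕ) :
    Nat.card Q ≤ Nat.card (Q ⧸ LinearMap.range f) ^ m * Nat.card (LinearMap.range (f ^ m)) := by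
  induction m with
  | zero =>
    have h : LinearMap.range (f ^ 0) = ⊤ := by
      rw [pow_zero]
      exact LinearMap.range_id
    rw [h, pow_zero, one_mul]
    exact (Nat.card_congr (Submodule.topEquiv (R := ℤ) (M := Q)).toEquiv).ge
  | succ m ih =>
    refine ih.trans ?_
    rw [pow_succ, mul_assoc]
    exact Nat.mul_le_mul_left _ (half_card_range_step f m)

/-- N2: `f ^ m = 0` implies `|Q| ≤ |Q / f Q| ^ m`
(`f ^ j` maps `Q / f Q` onto `f ^ j Q / f ^ (j+1) Q`). -/
theorem card_le_card_quot_pow (f : Module.End ℤ Q) (m : ℕ) (hf : f ^ m = 0) :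
    Nat.card Q ≤ Nat.card (Q ⧸ LinearMap.range f) ^ m := by
  have h := half_card_le_pow_mul f m
  rw [hf, LinearMap.range_zero] at h
  simpa using h


end Fermat.Agent.S43.Half
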