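/-
S43 (row 37), block HALF (architect helper43): leaf N4.
-/
import Fermat.Agent.S43.Half.N2

set_option autoImplicit false

namespace Fermat.Agent.S43.Half


variable {W : Type*} [AddCommGroup W] [Finite W]

/-- the relative form of N2. -/
theorem half_card_quot_le_pow_one (R : Submodule ℤ W) (f : Module.End ℤ W)
    (hfR : ∀ w ∈ R, f w ∈ R) (k : ℕ) (hf : ∀ w, (f ^ k) w ∈ R) :
    Nat.card (W ⧸ R) ≤ Nat.card (W ⧸ (R ⊔ LinearMap.range f)) ^ k := by
  have hle : R ≤ R.comap f := fun w hw => hfR w hw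
  set fb : Module.End ℤ (W ⧸ R) := R.mapQ R f hle with hfb
  have hpow : ∀ (j : ℕ) (w : W), (fb ^ j) (R.mkQ w) = R.mkQ ((f ^ j) w) := by
    intro j
    induction j with
    | zero => intro w; simp
    | succ j ih =>
      intro w
      rw [pow_succ, pow_succ, Module.End.mul_apply, Module.End.mul_apply, ← ih]
      rfl
  have hzero : fb ^ k = 0 := by
    ext w
    have h1 := hpow k w
    simp only [LinearMap.comp_apply, LinearMap.zero_apply]
    rw [h1]
    exact (Submodule.Quotient.mk_eq_zero R).2 (hf w)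
  have hrange : LinearMap.range fb = (LinearMap.range f).map R.mkQ := by
    ext y
    constructor
    · rintro ⟨x, rfl⟩
      obtain ⟨w, rfl⟩ := R.mkQ_surjective x
      exact ⟨f w, ⟨w, rfl⟩, rfl⟩
    · rintro ⟨_, ⟨w, rfl⟩, rfl⟩
      exact ⟨R.mkQ w, rfl⟩
  have : Finite (W ⧸ R) := Finite.of_surjective _ R.mkQ_surjective
  have h2 := card_le_card_quot_pow fb k hzero
  rw [hrange] at h2
  rwa [Nat.card_congr (Submodule.quotientQuotientEquivQuotientSup R (LinearMap.range f)).toEquiv]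
    at h2

/-- N4: modulo the stable submodule `R`: `f ^ k = 0`, `g ^ P ∈ f End` imply
`|W/R| ≤ |W/(R + f W + g W)| ^ (k P)`.  (N2 for `f` on `W/R`, then N2 for `g` on `W/(R + f W)`.) -/
theorem card_quot_le_pow (R : Submodule ℤ W) (f g : Module.End ℤ W) (hc : Commute f g)
    (hfR : ∀ w ∈ R, f w ∈ R) (hgR : ∀ w ∈ R, g w ∈ R) (k P : ℕ)
    (hf : ∀ w, (f ^ k) w ∈ R) (hg : ∀ w, (g ^ P) w ∈ R ⊔ LinearMap.range f) :
    Nat.card (W ⧸ R) ≤
      Nat.card (W ⧸ (R ⊔ LinearMap.range f ⊔ LinearMap.range g)) ^ (k * P) := by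
  have h1 := half_card_quot_le_pow_one R f hfR k hf
  have hst : ∀ w ∈ R ⊔ LinearMap.range f, g w ∈ R ⊔ LinearMap.range f := by
    intro w hw
    obtain ⟨r, hr, y, ⟨x, rfl⟩, rfl⟩ := Submodule.mem_sup.1 hw
    rw [map_add]
    refine Submodule.add_mem _ (Submodule.mem_sup_left (hgR r hr)) (Submodule.mem_sup_right ?_)
    refine ⟨g x, ?_⟩
    have := congrArg (fun e : Module.End ℤ W => e x) hc.eq
    simpa [Module.End.mul_apply] using this
  have h2 := half_card_quot_le_pow_one (R ⊔ LinearMap.range f) g hst P hg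
  calc Nat.card (W ⧸ R) ≤ Nat.card (W ⧸ (R ⊔ LinearMap.range f)) ^ k := h1
    _ ≤ (Nat.card (W ⧸ (R ⊔ LinearMap.range f ⊔ LinearMap.range g)) ^ P) ^ k :=
        Nat.pow_le_pow_left h2 k
    _ = _ := by rw [← pow_mul, mul_comm]


end Fermat.Agent.S43.Half
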