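/-
S43 (row 37), block HALF (architect helper43): leaf B5.
-/
import Fermat.Agent.S43.Half.B4
import Fermat.Agent.S43.Half.N4
import Fermat.Agent.S43.Half.Poly

set_option autoImplicit false

namespace Fermat.Agent.S43.Half


variable {W W0 : Type*} [AddCommGroup W] [AddCommGroup W0] [Finite W] [Finite W0]
  {p k a r : ℕ} {δ X : Module.End ℤ W} {N0 : Module.End ℤ W0} {i : W0 →ₗ[ℤ] W} {ν : W →ₗ[ℤ] W0}

/-- B5 (step (4) of the memo): `|W / Y W| ≤ p ^ (k r P)`.  (`card_quot_le_pow` with `f = p`,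
`g = δ - 1`, `card_quot_sup_le`, `exists_T_pow`.) -/
theorem card_quot_range_le (H : Hyp0 p k a r δ X N0 i ν) (Y : Module.End ℤ W)
    (hY : Commute δ Y) (hνY : ∀ w, ν (Y w) = N0 (ν w)) :
    Nat.card (W ⧸ LinearMap.range Y) ≤ p ^ (k * r * p ^ a) := by
  have hδY : ∀ w, δ (Y w) = Y (δ w) := fun w => by
    have := congrArg (fun f : Module.End ℤ W => f w) hY.eq
    simpa using this
  obtain ⟨c, -, hc⟩ := exists_T_pow p a H.hp δ H.δP
  have h1 := card_quot_le_pow (LinearMap.range Y) ((p : ℤ) • (1 : Module.End ℤ W)) (δ - 1)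
    (by
      refine Commute.smul_left ?_ _
      exact Commute.one_left _)
    (by
      intro w hw
      simpa using (LinearMap.range Y).smul_mem (p : ℤ) hw)
    (by
      rintro _ ⟨w, rfl⟩
      refine ⟨δ w - w, ?_⟩
      simp [hδY])
    k (p ^ a)
    (by
      intro w
      have : (((p : ℤ) • (1 : Module.End ℤ W)) ^ k) w = (p ^ k : ℤ) • w := by
        rw [smul_pow, one_pow, LinearMap.smul_apply, Module.End.one_apply]
      rw [this, H.pk]
      exact zero_mem _)
    (by
      intro w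
      rw [hc]
      refine Submodule.mem_sup_right ⟨c w, ?_⟩
      simp)
  have h2 := card_quot_sup_le H Y hνY
  calc Nat.card (W ⧸ LinearMap.range Y)
      ≤ _ := h1
    _ ≤ (p ^ r) ^ (k * p ^ a) := Nat.pow_le_pow_left h2 _
    _ = p ^ (k * r * p ^ a) := by
      rw [← pow_mul]
      congr 1
      ring

end Fermat.Agent.S43.Half
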