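/-
S43 (row 37), block HALF (architect helper43): leaf B6.
-/
import Fermat.Agent.S43.Half.B3
import Fermat.Agent.S43.Half.B5

set_option autoImplicit false

namespace Fermat.Agent.S43.Half


variable {W W0 : Type*} [AddCommGroup W] [AddCommGroup W0] [Finite W] [Finite W0]
  {p k a r : ℕ} {δ X : Module.End ℤ W} {N0 : Module.End ℤ W0} {i : W0 →ₗ[ℤ] W} {ν : W →ₗ[ℤ] W0}

/-- B6: `K = Y W`, and `|ker Y| = p ^ (k r P)`. -/
theorem eq_range_and_card_ker (H : Hyp0 p k a r δ X N0 i ν) (Y : Module.End ℤ W)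
    (hY : Commute δ Y) (hνY : ∀ w, ν (Y w) = N0 (ν w)) (K : Submodule ℤ W)
    (HK : HypK p δ Y N0 i K) :
    K = LinearMap.range Y ∧ Nat.card (LinearMap.ker Y) = p ^ (k * r * p ^ a) := by
  set h : ℕ := p ^ (k * r * p ^ a) with hh
  have hpos : 0 < h := pow_pos H.hp.pos _
  have hle : LinearMap.range Y ≤ K := by
    rintro _ ⟨w, rfl⟩
    exact HK.le w
  have b3 : h ≤ Nat.card (W ⧸ K) := le_card_quot H K HK.stable HK.inj
  have b5 : Nat.card (W ⧸ LinearMap.range Y) ≤ h := card_quot_range_le H Y hY hνY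
  have hW : Nat.card W = h * h := by
    rw [H.cardW, hh, ← pow_add]; congr 1; ring
  have eK := Submodule.card_eq_card_quotient_mul_card K
  have eR := Submodule.card_eq_card_quotient_mul_card (LinearMap.range Y)
  have hKR : Nat.card (LinearMap.range Y) ≤ Nat.card K :=
    Nat.card_le_card_of_injective (Submodule.inclusion hle) (Submodule.inclusion_injective hle)
  -- `|K| ≤ h ≤ |range Y|`
  have hK : Nat.card K ≤ h := by
    have : Nat.card K * h ≤ h * h := by
      rw [← hW, eK]; exact Nat.mul_le_mul_left _ b3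
    exact Nat.le_of_mul_le_mul_right this hpos
  have hR : h ≤ Nat.card (LinearMap.range Y) := by
    have : h * h ≤ Nat.card (LinearMap.range Y) * h := by
      rw [← hW, eR]; exact Nat.mul_le_mul_left _ b5
    exact Nat.le_of_mul_le_mul_right this hpos
  have hRh : Nat.card (LinearMap.range Y) = h := le_antisymm (hKR.trans hK) hR
  refine ⟨?_, ?_⟩
  · symm
    apply SetLike.coe_injective
    refine Set.eq_of_subset_of_ncard_le hle ?_ (Set.toFinite _)
    rw [← Nat.card_coe_set_eq, ← Nat.card_coe_set_eq]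
    exact hK.trans hR
  · have e1 := Submodule.card_eq_card_quotient_mul_card (LinearMap.ker Y)
    have e2 : Nat.card (W ⧸ LinearMap.ker Y) = Nat.card (LinearMap.range Y) :=
      Nat.card_congr Y.quotKerEquivRange.toEquiv
    rw [e2, hRh, hW] at e1
    exact (Nat.eq_of_mul_eq_mul_right hpos e1).symm

end Fermat.Agent.S43.Half
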