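/-
S43 (row 37), block HALF (architect helper43): leaf C1.
-/
import Fermat.Agent.S43.Half.Defs

set_option autoImplicit false

namespace Fermat.Agent.S43.Half


variable {W W0 : Type*} [AddCommGroup W] [AddCommGroup W0] [Finite W] [Finite W0]
  {p k a r : ℕ} {δ X : Module.End ℤ W} {N0 : Module.End ℤ W0} {i : W0 →ₗ[ℤ] W} {ν : W →ₗ[ℤ] W0}

omit [Finite W] [Finite W0] in
/-- `ker X ∩ ker (X - T) = i (ker N0)`. -/
theorem half_inf_ker_eq_map (H : Hyp0 p k a r δ X N0 i ν) :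
    LinearMap.ker X ⊓ LinearMap.ker (X - (δ - 1)) = (LinearMap.ker N0).map i := by
  ext w
  simp only [Submodule.mem_inf, LinearMap.mem_ker, Submodule.mem_map, LinearMap.sub_apply,
    Module.End.one_apply]
  constructor
  · rintro ⟨h1, h2⟩
    rw [h1, zero_sub, neg_eq_zero, sub_eq_zero] at h2
    obtain ⟨x, rfl⟩ := H.i_surj w h2
    refine ⟨x, ?_, rfl⟩
    apply H.i_inj
    rw [← H.X_i, h1, map_zero]
  · rintro ⟨x, hx, rfl⟩
    have h1 : X (i x) = 0 := by rw [H.X_i, hx, map_zero]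
    exact ⟨h1, by rw [h1, H.δ_i, sub_self, sub_self]⟩

/-- C1: `ker X ∩ ker (X - T) = i (ker N0)` has `p ^ (k r)` elements. -/
theorem card_inf_ker (H : Hyp0 p k a r δ X N0 i ν) :
    Nat.card ↥(LinearMap.ker X ⊓ LinearMap.ker (X - (δ - 1))) = p ^ (k * r) := by
  rw [half_inf_ker_eq_map H, ← H.card_ker]
  exact Nat.card_congr (Submodule.equivMapOfInjective i H.i_inj (LinearMap.ker N0)).symm.toEquiv

end Fermat.Agent.S43.Half
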