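/-
S43 (row 37), block HALF (architect helper43): leaf C2.
-/
import Fermat.Agent.S43.Half.C1

set_option autoImplicit false

namespace Fermat.Agent.S43.Half


variable {W W0 : Type*} [AddCommGroup W] [AddCommGroup W0] [Finite W] [Finite W0]
  {p k a r : ℕ} {δ X : Module.End ℤ W} {N0 : Module.End ℤ W0} {i : W0 →ₗ[ℤ] W} {ν : W →ₗ[ℤ] W0}

private theorem half_card_sup_mul_card_inf (A B : Submodule ℤ W) :
    Nat.card ↥(A ⊔ B) * Nat.card ↥(A ⊓ B) = Nat.card A * Nat.card B := by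
  have h1 := Submodule.card_eq_card_quotient_mul_card (Submodule.comap A.subtype (A ⊓ B))
  have h2 := Submodule.card_eq_card_quotient_mul_card (Submodule.comap (A ⊔ B).subtype B)
  have h3 : Nat.card (Submodule.comap A.subtype (A ⊓ B)) = Nat.card ↥(A ⊓ B) :=
    Nat.card_congr (Submodule.comapSubtypeEquivOfLe inf_le_left).toEquiv
  have h4 : Nat.card (Submodule.comap (A ⊔ B).subtype B) = Nat.card B :=
    Nat.card_congr (Submodule.comapSubtypeEquivOfLe le_sup_right).toEquiv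
  have h5 : Nat.card (↥A ⧸ Submodule.comap A.subtype (A ⊓ B)) =
      Nat.card (↥(A ⊔ B) ⧸ Submodule.comap (A ⊔ B).subtype B) :=
    Nat.card_congr (LinearMap.quotientInfEquivSupQuotient A B).toEquiv
  rw [h1, h2, h3, h4, h5]
  ring

/-- C2: `[W : ker X + ker X'] ≤ p ^ (k r)`.
(`|A + B| |A ∩ B| = |A| |B|`, `cardW`, `card_inf_ker`.) -/
theorem card_quot_sup_ker_le (H : Hyp0 p k a r δ X N0 i ν)
    (h1 : p ^ (k * r * p ^ a) ≤ Nat.card (LinearMap.ker X))
    (h2 : p ^ (k * r * p ^ a) ≤ Nat.card (LinearMap.ker (X - (δ - 1)))) :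
    Nat.card (W ⧸ (LinearMap.ker X ⊔ LinearMap.ker (X - (δ - 1)))) ≤ p ^ (k * r) := by
  have e1 := half_card_sup_mul_card_inf (LinearMap.ker X) (LinearMap.ker (X - (δ - 1)))
  rw [card_inf_ker H] at e1
  have e2 := Submodule.card_eq_card_quotient_mul_card
    (LinearMap.ker X ⊔ LinearMap.ker (X - (δ - 1)))
  have e3 : Nat.card W = p ^ (k * r * p ^ a) * p ^ (k * r * p ^ a) := by
    rw [H.cardW, ← pow_add]; congr 1; ring
  have hpos : 0 < Nat.card ↥(LinearMap.ker X ⊔ LinearMap.ker (X - (δ - 1))) := Nat.card_pos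
  have e4 : Nat.card ↥(LinearMap.ker X ⊔ LinearMap.ker (X - (δ - 1))) *
      Nat.card (W ⧸ (LinearMap.ker X ⊔ LinearMap.ker (X - (δ - 1)))) ≤
      Nat.card ↥(LinearMap.ker X ⊔ LinearMap.ker (X - (δ - 1))) * p ^ (k * r) := by
    rw [← e2, e3, e1]
    exact Nat.mul_le_mul h1 h2
  exact Nat.le_of_mul_le_mul_left e4 hpos

end Fermat.Agent.S43.Half
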