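/-
S43 (row 37), block HALF (architect helper43): leaf C3.
-/
import Fermat.Agent.S43.Half.Defs

set_option autoImplicit false

namespace Fermat.Agent.S43.Half


variable {W W0 : Type*} [AddCommGroup W] [AddCommGroup W0] [Finite W] [Finite W0]
  {p k a r : ℕ} {δ X : Module.End ℤ W} {N0 : Module.End ℤ W0} {i : W0 →ₗ[ℤ] W} {ν : W →ₗ[ℤ] W0}

/-- C3: `[W : ker X + ker X' + T W] ≥ p ^ (k r)` (`w ↦ ν w mod ker N0` is onto
`W0 / ker N0` and kills the three submodules). -/
theorem le_card_quot_sup_ker (H : Hyp0 p k a r δ X N0 i ν) :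
    p ^ (k * r) ≤ Nat.card (W ⧸ (LinearMap.ker X ⊔ LinearMap.ker (X - (δ - 1)) ⊔
      LinearMap.range (δ - 1))) := by
  set S : Submodule ℤ W := LinearMap.ker X ⊔ LinearMap.ker (X - (δ - 1)) ⊔
      LinearMap.range (δ - 1) with hS
  -- the map
  let g : W →ₗ[ℤ] W0 ⧸ LinearMap.ker N0 := (LinearMap.ker N0).mkQ ∘ₗ ν
  have hg : Function.Surjective g :=
    (Submodule.mkQ_surjective _).comp H.ν_surj
  have hker : S ≤ LinearMap.ker g := by
    have key : ∀ w : W, N0 (ν w) = 0 → w ∈ LinearMap.ker g := by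
      intro w hw
      rw [LinearMap.mem_ker]
      show (LinearMap.ker N0).mkQ (ν w) = 0
      rw [Submodule.mkQ_apply, Submodule.Quotient.mk_eq_zero]
      exact hw
    refine sup_le (sup_le ?_ ?_) ?_
    · intro w hw
      apply key
      rw [← H.ν_X, LinearMap.mem_ker.1 hw, map_zero]
    · intro w hw
      apply key
      have h1 : X w - (δ w - w) = 0 := by
        have := LinearMap.mem_ker.1 hw
        simpa [LinearMap.sub_apply] using this
      have h2 : X w = δ w - w := sub_eq_zero.1 h1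
      rw [← H.ν_X, h2, map_sub, H.ν_δ, sub_self]
    · rintro _ ⟨w, rfl⟩
      apply key
      have h2 : (δ - 1 : Module.End ℤ W) w = δ w - w := by
        simp [LinearMap.sub_apply]
      rw [h2, map_sub, H.ν_δ, sub_self, map_zero]
  -- the induced surjection
  have hsurj : Function.Surjective (S.liftQ g hker) := by
    intro y
    obtain ⟨w, rfl⟩ := hg y
    exact ⟨S.mkQ w, by simp⟩
  haveI : Finite (W ⧸ S) := Finite.of_surjective _ (Submodule.mkQ_surjective S)
  have h1 : Nat.card (W0 ⧸ LinearMap.ker N0) ≤ Nat.card (W ⧸ S) :=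
    Nat.card_le_card_of_surjective _ hsurj
  -- the cardinality of the target
  have h2 : Nat.card (W0 ⧸ LinearMap.ker N0) * Nat.card (LinearMap.ker N0) = Nat.card W0 := by
    have := Submodule.card_eq_card_quotient_mul_card (LinearMap.ker N0)
    rw [mul_comm]
    exact this.symm
  rw [H.card_ker, H.cardW0] at h2
  have hpos : 0 < p ^ (k * r) := pow_pos H.hp.pos _
  have h3 : Nat.card (W0 ⧸ LinearMap.ker N0) = p ^ (k * r) := by
    have e : p ^ (2 * (k * r)) = p ^ (k * r) * p ^ (k * r) := by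
      rw [← pow_add]; congr 1; ring
    rw [e] at h2
    exact Nat.eq_of_mul_eq_mul_right hpos h2
  rw [← h3]
  exact h1

end Fermat.Agent.S43.Half
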