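/-
S43 (row 37), block HALF (architect helper43): leaf C4.
-/
import Fermat.Agent.S43.Half.C2
import Fermat.Agent.S43.Half.C3

set_option autoImplicit false

namespace Fermat.Agent.S43.Half


variable {W W0 : Type*} [AddCommGroup W] [AddCommGroup W0] [Finite W] [Finite W0]
  {p k a r : ℕ} {δ X : Module.End ℤ W} {N0 : Module.End ℤ W0} {i : W0 →ₗ[ℤ] W} {ν : W →ₗ[ℤ] W0}

/-- Two nested submodules of a finite module with `[W : S] ≤ [W : S']` are equal. -/
private theorem half_eq_of_le_of_card_quot_le {S S' : Submodule ℤ W} (hle : S ≤ S')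
    (hc : Nat.card (W ⧸ S) ≤ Nat.card (W ⧸ S')) : S = S' := by
  classical
  have e1 := Submodule.card_eq_card_quotient_mul_card S
  have e2 := Submodule.card_eq_card_quotient_mul_card S'
  haveI : Finite (W ⧸ S) := Finite.of_surjective _ (Submodule.mkQ_surjective S)
  haveI : Finite (W ⧸ S') := Finite.of_surjective _ (Submodule.mkQ_surjective S')
  have hpos : 0 < Nat.card (W ⧸ S) := Nat.card_pos
  have hpos' : 0 < Nat.card (W ⧸ S') := Nat.card_pos
  have hS : 0 < Nat.card S := Nat.card_pos
  have hS' : 0 < Nat.card S' := Nat.card_pos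
  have hcard : Nat.card S' ≤ Nat.card S := by
    by_contra hlt
    push Not at hlt
    have : Nat.card S * Nat.card (W ⧸ S) < Nat.card S' * Nat.card (W ⧸ S') :=
      Nat.mul_lt_mul_of_lt_of_le hlt hc hpos'
    omega
  have hset : (S : Set W) = (S' : Set W) := by
    apply Set.eq_of_subset_of_ncard_le hle _ (Set.toFinite _)
    rw [← Nat.card_coe_set_eq, ← Nat.card_coe_set_eq]
    exact hcard
  exact SetLike.coe_injective hset

/-- C4 (step (2)): `T W ≤ ker X + ker X'`. -/
theorem range_T_le (H : Hyp0 p k a r δ X N0 i ν)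
    (h1 : p ^ (k * r * p ^ a) ≤ Nat.card (LinearMap.ker X))
    (h2 : p ^ (k * r * p ^ a) ≤ Nat.card (LinearMap.ker (X - (δ - 1)))) :
    LinearMap.range (δ - 1) ≤ LinearMap.ker X ⊔ LinearMap.ker (X - (δ - 1)) := by
  have h := half_eq_of_le_of_card_quot_le
    (S := LinearMap.ker X ⊔ LinearMap.ker (X - (δ - 1)))
    (S' := LinearMap.ker X ⊔ LinearMap.ker (X - (δ - 1)) ⊔ LinearMap.range (δ - 1))
    le_sup_left ((card_quot_sup_ker_le H h1 h2).trans (le_card_quot_sup_ker H))
  rw [h]
  exact le_sup_right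

end Fermat.Agent.S43.Half
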