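/-
S43 (row 37), block HALF (architect helper43): leaf C5.
-/
import Fermat.Agent.S43.Half.Defs

set_option autoImplicit false

namespace Fermat.Agent.S43.Half


variable {W W0 : Type*} [AddCommGroup W] [AddCommGroup W0] [Finite W] [Finite W0]
  {p k a r : ℕ} {δ X : Module.End ℤ W} {N0 : Module.End ℤ W0} {i : W0 →ₗ[ℤ] W} {ν : W →ₗ[ℤ] W0}

/-- C5 (step (3)): `X' X W ≤ p ^ (k - a) W`.
(`X' X T = 0` by C4, so `T (X' X w) = 0`, `X' X w = i c`, `P c = ν (X' X w) = N0 ^ 2 ν w = 0`,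
`c = p ^ (k-a) c'`.) -/
theorem exists_eq_smul (H : Hyp0 p k a r δ X N0 i ν)
    (h : LinearMap.range (δ - 1) ≤ LinearMap.ker X ⊔ LinearMap.ker (X - (δ - 1))) (w : W) :
    ∃ w' : W, (X - (δ - 1)) (X w) = (p ^ (k - a) : ℤ) • w' := by
  have hc : ∀ v : W, δ (X v) = X (δ v) := fun v => congrArg (fun f : Module.End ℤ W => f v) H.comm.eq
  -- `X' X = X X'`
  have hXX' : ∀ v : W, (X - (δ - 1)) (X v) = X ((X - (δ - 1)) v) := by
    intro v
    simp only [LinearMap.sub_apply, Module.End.one_apply, map_sub, hc]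
  -- `X' X T = 0`
  have h1 : ∀ v : W, (X - (δ - 1)) (X ((δ - 1) v)) = 0 := by
    intro v
    obtain ⟨u, hu, u', hu', huv⟩ := Submodule.mem_sup.1 (h (LinearMap.mem_range_self (δ - 1) v))
    rw [LinearMap.mem_ker] at hu hu'
    rw [← huv, map_add, map_add, hu, map_zero, zero_add, hXX', hu', map_zero]
  -- `T X' X = X' X T`
  have h2 : δ ((X - (δ - 1)) (X w)) = (X - (δ - 1)) (X w) := by
    have h3 := h1 w
    have h4 : (X - (δ - 1)) (X ((δ - 1) w)) =
        δ ((X - (δ - 1)) (X w)) - (X - (δ - 1)) (X w) := by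
      simp only [LinearMap.sub_apply, Module.End.one_apply, map_sub, hc]
    rw [h4] at h3
    exact sub_eq_zero.1 h3
  obtain ⟨c, hcw⟩ := H.i_surj _ h2
  have h5 : (p ^ a : ℤ) • c = 0 := by
    rw [← H.ν_i, hcw]
    simp only [LinearMap.sub_apply, Module.End.one_apply, map_sub, H.ν_X, H.ν_δ, H.N0_sq, sub_self]
  obtain ⟨c', rfl⟩ := H.div a c H.hak h5
  exact ⟨i c', by rw [← hcw, map_zsmul]⟩


end Fermat.Agent.S43.Half
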