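/-
S43 (row 37), block HALF (architect helper43): THE THEOREM.
-/
import Fermat.Agent.S43.Half.B6
import Fermat.Agent.S43.Half.C4
import Fermat.Agent.S43.Half.C5

set_option autoImplicit false
set_option linter.unusedSectionVars false

namespace Fermat.Agent.S43.Half

variable {W W0 : Type*} [AddCommGroup W] [AddCommGroup W0] [Finite W] [Finite W0]
  {p k a r : ℕ} {δ X : Module.End ℤ W} {N0 : Module.End ℤ W0} {i : W0 →ₗ[ℤ] W} {ν : W →ₗ[ℤ] W0}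
  {K K' : Submodule ℤ W}

theorem commute_X' (H : Hyp0 p k a r δ X N0 i ν) : Commute δ (X - (δ - 1)) :=
  H.comm.sub_right ((Commute.refl δ).sub_right (Commute.one_right δ))

theorem ν_X' (H : Hyp0 p k a r δ X N0 i ν) (w : W) : ν ((X - (δ - 1)) w) = N0 (ν w) := by
  simp [H.ν_X, H.ν_δ]

/-- **HALF.**  `K = (Σ - 1) W`, `K' = (Σ - δ) W` and `(Σ - δ)(Σ - 1) W ≤ p ^ (k - a) W`. -/
theorem half (H : Hyp0 p k a r δ X N0 i ν) (HK : HypK p δ X N0 i K)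
    (HK' : HypK p δ (X - (δ - 1)) N0 i K') :
    K = LinearMap.range X ∧ K' = LinearMap.range (X - (δ - 1)) ∧
      ∀ w : W, ∃ w' : W, (X - (δ - 1)) (X w) = (p ^ (k - a) : ℤ) • w' := by
  obtain ⟨h1, h2⟩ := eq_range_and_card_ker H X H.comm H.ν_X K HK
  obtain ⟨h3, h4⟩ := eq_range_and_card_ker H (X - (δ - 1)) (commute_X' H) (ν_X' H) K' HK'
  exact ⟨h1, h3, exists_eq_smul H (range_T_le H h2.ge h4.ge)⟩

/-- R2: `(Σ - δ) B W ≤ p ^ (k - a) W` for every `B` with `B W ≤ K` (`B = Φ - U_q`). -/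
theorem half_R2 (H : Hyp0 p k a r δ X N0 i ν) (HK : HypK p δ X N0 i K)
    (HK' : HypK p δ (X - (δ - 1)) N0 i K') (y : W) (hy : y ∈ K) :
    ∃ w' : W, (X - (δ - 1)) y = (p ^ (k - a) : ℤ) • w' := by
  obtain ⟨h1, -, h3⟩ := half H HK HK'
  rw [h1] at hy
  obtain ⟨w, rfl⟩ := hy
  exact h3 w

/-- R2': `(Σ - 1) B' W ≤ p ^ (k - a) W` for every `B'` with `B' W ≤ K'` (`B' = Φ - U_q'`). -/
theorem half_R2' (H : Hyp0 p k a r δ X N0 i ν) (HK : HypK p δ X N0 i K)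
    (HK' : HypK p δ (X - (δ - 1)) N0 i K') (y : W) (hy : y ∈ K') :
    ∃ w' : W, X y = (p ^ (k - a) : ℤ) • w' := by
  obtain ⟨-, h2, h3⟩ := half H HK HK'
  rw [h2] at hy
  obtain ⟨w, rfl⟩ := hy
  obtain ⟨w', hw'⟩ := h3 w
  refine ⟨w', ?_⟩
  rw [← hw']
  have hc : Commute X (X - (δ - 1)) :=
    (Commute.refl X).sub_right (H.comm.symm.sub_right (Commute.one_right X))
  exact congrArg (fun f : Module.End ℤ W => f w) hc.eq

end Fermat.Agent.S43.Half
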